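/-
CELL-S / [F] (helper30), layer 1: two facts about helper44's abstract Galois-compatible
valuations `GalVal N A` (`GK/SS/GalSide.lean`) that are independent of the Kummer modulus.

* `GalVal.IsCstUnit.of_pow` : if `y ^ n` is a `W`-unit with CONSTANT reduction (`n ≠ 0`), so is `y`
  (the constants `ℚ̄` are algebraically closed: `y ^ n - a = ∏ (y - b)` over the `n`-th roots `b`
  of `a`, and one factor must be in the maximal ideal).  No residue field is needed.
* `GalVal.IsCstUnit.gal_dec` : the DECOMPOSITION group of `A` preserves "constant reduction"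
  (helper44's `IsCstUnit.gal` is the inertia case, with the same constant).
-/
import Fermat.Agent.GK.SS.GalSide

set_option autoImplicit false

namespace Fermat.Agent.GS.F

open Fermat.Agent.GK.SS Fermat.Agent.GJ.KumGroup ModularCurve Polynomial

/-- `ℚ̄`. -/
local notation "Qb" => AlgebraicClosure ℚ

section VS

variable {E : Type*} [Field E] (B : ValuationSubring E)

/-- `x ^ n` has valuation `1` iff `x` has (for `n ≠ 0`). -/
theorem vs_val_pow_eq_one_iff {x : E} {n : ℕ} (hn : n ≠ 0) :
    B.valuation (x ^ n) = 1 ↔ B.valuation x = 1 := by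
  rw [map_pow]
  exact pow_eq_one_iff_of_nonneg zero_le hn

/-- in a product of elements of valuation `≤ 1` with valuation `< 1`, some factor has
valuation `< 1`. -/
theorem vs_exists_lt_of_prod_lt (s : Multiset E) (h1 : ∀ x ∈ s, B.valuation x ≤ 1)
    (h : B.valuation s.prod < 1) : ∃ x ∈ s, B.valuation x < 1 := by
  by_contra hcon
  push Not at hcon
  have h2 : ∀ x ∈ s, B.valuation x = 1 := fun x hx => le_antisymm (h1 x hx) (hcon x hx)
  have h3 : B.valuation s.prod = 1 := by
    rw [map_multiset_prod]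
    refine Multiset.prod_eq_one ?_
    intro v hv
    obtain ⟨x, hx, rfl⟩ := Multiset.mem_map.1 hv
    exact h2 x hx
  rw [h3] at h
  exact lt_irrefl _ h

end VS

namespace GalValF

variable {N : ℕ} {A : ValuationSubring Qb} {V : GalVal N A}

/-- `y ^ n - a = ∏_{b ^ n = a} (y - b)` over an algebraically closed field of constants -/
theorem pow_sub_const_eq_prod (y : FK N) (a : Qb) {n : ℕ} (hn : n ≠ 0) :
    y ^ n - algebraMap Qb (FK N) a =
      (((X ^ n - C a : Qb[X]).roots).map fun b => y - algebraMap Qb (FK N) b).prod := by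
  have hs : (X ^ n - C a : Qb[X]).Splits := IsAlgClosed.splits _
  have hm : (X ^ n - C a : Qb[X]).Monic := monic_X_pow_sub_C a hn
  have h1 := hs.eq_prod_roots_of_monic hm
  have h2 := congrArg (Polynomial.aeval y) h1
  rw [map_sub, map_pow, aeval_X, aeval_C, map_multiset_prod, Multiset.map_map] at h2
  rw [h2]
  congr 1
  refine Multiset.map_congr rfl fun b _ => ?_
  simp only [Function.comp_apply, map_sub, aeval_X, aeval_C]

theorem pow_eq_of_mem_roots {a b : Qb} {n : ℕ} (hn : n ≠ 0)
    (hb : b ∈ (X ^ n - C a : Qb[X]).roots) : b ^ n = a := by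
  have h0 : (X ^ n - C a : Qb[X]) ≠ 0 := (monic_X_pow_sub_C a hn).ne_zero
  have h1 := (mem_roots h0).1 hb
  rw [IsRoot.def, eval_sub, eval_pow, eval_X, eval_C, sub_eq_zero] at h1
  exact h1

/-- **roots of units with constant reduction have constant reduction** -/
theorem isCstUnit_of_pow {y : FK N} {n : ℕ} (hn : n ≠ 0) (h : V.IsCstUnit (y ^ n)) :
    V.IsCstUnit y := by
  have hy1 : V.W.valuation y = 1 := (vs_val_pow_eq_one_iff V.W hn).1 h.val_eq_one
  obtain ⟨a, ha, hya⟩ := h
  rw [pow_sub_const_eq_prod y a hn] at hya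
  have hb1 : ∀ b ∈ (X ^ n - C a : Qb[X]).roots, A.valuation b = 1 := by
    intro b hb
    have := pow_eq_of_mem_roots hn hb
    rw [← this] at ha
    exact (vs_val_pow_eq_one_iff A hn).1 ha
  obtain ⟨x, hx, hxlt⟩ := vs_exists_lt_of_prod_lt V.W _ (by
    intro x hx
    obtain ⟨b, hb, rfl⟩ := Multiset.mem_map.1 hx
    refine le_trans (Valuation.map_sub _ _ _) (max_le hy1.le ?_)
    exact (V.val_const_eq_one (hb1 b hb)).le) hya
  obtain ⟨b, hb, rfl⟩ := Multiset.mem_map.1 hx
  exact ⟨b, hb1 b hb, hxlt⟩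

/-- the decomposition group preserves the maximal ideal of `W` -/
theorem val_gal_lt_one {σ : Qb ≃ₐ[ℚ] Qb} (hσ : σ ∈ A.decompositionSubgroup ℚ) {z : FK N}
    (hz : V.W.valuation z < 1) :
    V.W.valuation (arithmeticRingAut (modularFunctionFieldFull N) σ z) < 1 := by
  by_cases h0 : z = 0
  · rw [h0, map_zero, map_zero]; exact zero_lt_one
  have hzW : z ∈ V.W := (V.W.valuation_le_one_iff z).1 hz.le
  have hσz : arithmeticRingAut (modularFunctionFieldFull N) σ z ∈ V.W := V.stable σ hσ z hzW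
  refine lt_of_le_of_ne ((V.W.valuation_le_one_iff _).2 hσz) fun h1 => ?_
  obtain ⟨-, -, h3⟩ := (vs_val_eq_one_iff V.W).1 h1
  rw [← map_inv₀] at h3
  have h4 := V.stable σ⁻¹ (inv_mem hσ) _ h3
  have h5 : arithmeticRingAut (modularFunctionFieldFull N) σ⁻¹
      (arithmeticRingAut (modularFunctionFieldFull N) σ z⁻¹) = z⁻¹ := by
    rw [← Fermat.Agent.GJ.Kum.KumType.arithmeticRingAut_mul_apply, inv_mul_cancel,
      Fermat.Agent.GJ.Kum.KumType.arithmeticRingAut_one_apply]
  rw [h5] at h4
  exact hz.ne ((vs_val_eq_one_iff V.W).2 ⟨h0, hzW, h4⟩)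

/-- a unit of `A` stays a unit of `A` under the decomposition group -/
theorem val_apply_eq_one {σ : Qb ≃ₐ[ℚ] Qb} (hσ : σ ∈ A.decompositionSubgroup ℚ) {a : Qb}
    (ha : A.valuation a = 1) : A.valuation (σ a) = 1 := by
  obtain ⟨h0, h1, h2⟩ := (vs_val_eq_one_iff A).1 ha
  refine (vs_val_eq_one_iff A).2 ⟨(map_ne_zero_iff _ σ.injective).2 h0,
    Fermat.Agent.S05.apply_mem_of_mem_decompositionSubgroup hσ h1, ?_⟩
  rw [← map_inv₀]
  exact Fermat.Agent.S05.apply_mem_of_mem_decompositionSubgroup hσ h2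

/-- **the decomposition group preserves "constant reduction"** (the constant moves by `σ`) -/
theorem isCstUnit_gal_dec {σ : Qb ≃ₐ[ℚ] Qb} (hσ : σ ∈ A.decompositionSubgroup ℚ) {y : FK N}
    (h : V.IsCstUnit y) : V.IsCstUnit (arithmeticRingAut (modularFunctionFieldFull N) σ y) := by
  obtain ⟨a, ha, hy⟩ := h
  refine ⟨σ a, val_apply_eq_one hσ ha, ?_⟩
  have := val_gal_lt_one (V := V) hσ hy
  rwa [map_sub, arithmeticRingAut_algebraMap] at this

end GalValF

end Fermat.Agent.GS.F
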