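/-
CELL-S / [F] (helper30), layer 2: **the subgroup `M⁰_m ⊆ J₀(N)(ℚ̄)[m]` of classes with an ADMISSIBLE
Kummer generator**, for two abstract Galois-compatible valuations `V1 V2 : GalVal N A`
(helper44, `GK/SS/GalSide.lean`; instantiated in `GS/F/Modular.lean` by the two Gauss valuations
at `A ∣ q ∥ N`).

`M0 V1 V2 m = { [(1/m)·div u] : u ∈ goodUnits V1 V2 m }`, where `goodUnits` = `m ∣ div u`, both
valuations `0`, both reductions CONSTANT.  Everything here is independent of the residue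
characteristic (in particular valid for `m = p ^ k`, `A ∣ p`).

* `mem_M0_iff` : membership, divisor form;
* `M0_le_torsion` : `M0 m ≤ J[m]`;
* `smul_mem_M0` : stable under the DECOMPOSITION group of `A`;
* `smul_sub_mem_M0` : **(U)** `σ • x - x ∈ M0 m` for `σ` in the INERTIA group and `x ∈ J[m]`
  (helper44's `norm_goodUnits`);
* `M0_mono`, `mem_M0_of_dvd_of_smul_eq_zero`, `M0_eq_inf` : `M0 d = M0 m ⊓ J[d]` for `d ∣ m`;
* `nsmul_mem_M0` : `x ∈ M0 (a * b) ⟹ a • x ∈ M0 b` (same Kummer generator) — the dévissage.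
-/
import Fermat.Agent.GS.F.CstPow
import Fermat.Agent.GH.KummerEquivariant
import Fermat.Agent.GJ.Kum.DivDvdBasic

set_option autoImplicit false

noncomputable section

namespace Fermat.Agent.GS.F

open AlgebraicCurve ModularCurve Fermat.Agent.GJ.KumGroup Fermat.Agent.GH.KummerPic
open Fermat.Agent.GK.SS Fermat.Agent.GJ.Kum.KumType Fermat.Agent.GH.TorsionCount
open Fermat.Agent.GH.KummerEquivariant Fermat.Agent.GK.Tate Fermat.Agent.GJ.Kum.DivBasic

/-- `ℚ̄`. -/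
local notation "Qb" => AlgebraicClosure ℚ
local notation "GQ" => (AlgebraicClosure ℚ ≃ₐ[ℚ] AlgebraicClosure ℚ)

variable {N : ℕ} [NeZero N] {A : ValuationSubring Qb} (V1 V2 : GalVal N A)

/-- the admissible units inside the `m`-divisible units -/
def goodDiv (m : ℕ) : Subgroup (pDivUnits Qb (FK N) m) :=
  (goodUnits V1 V2 m).subgroupOf (pDivUnits Qb (FK N) m)

omit [NeZero N] in
theorem mem_goodDiv {m : ℕ} {u : pDivUnits Qb (FK N) m} :
    u ∈ goodDiv V1 V2 m ↔ (u : (FK N)ˣ) ∈ goodUnits V1 V2 m := Iff.rfl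

/-- **`M⁰_m`**: the classes `[(1/m)·div u]` of the admissible units. -/
def M0 (m : ℕ) [NeZero m] : AddSubgroup (JZero N) :=
  haveI := hasPrincipalDivisors_FK N
  (Subgroup.toAddSubgroup (goodDiv V1 V2 m)).map (kum0 (K := Qb) (F := FK N) m)

variable {V1 V2}

theorem mem_M0 {m : ℕ} [NeZero m] {x : JZero N} :
    haveI := hasPrincipalDivisors_FK N
    x ∈ M0 V1 V2 m ↔ ∃ u : pDivUnits Qb (FK N) m, (u : (FK N)ˣ) ∈ goodUnits V1 V2 m ∧
      kum0 (K := Qb) (F := FK N) m (Additive.ofMul u) = x := by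
  have := hasPrincipalDivisors_FK N
  constructor
  · rintro ⟨u, hu, rfl⟩
    exact ⟨Additive.toMul u, hu, rfl⟩
  · rintro ⟨u, hu, rfl⟩
    exact ⟨Additive.ofMul u, hu, rfl⟩

/-! ### divisor form -/

/-- the class of an `m`-divisible unit `u` is the class of any `D` with `m • D = div u` -/
theorem kum0_eq_mk {m : ℕ} [NeZero m] (u : pDivUnits Qb (FK N) m)
    (D : Divisor.degZero (K := Qb) (F := FK N))
    (hD : ∀ v : Place Qb (FK N), (m : ℤ) * (D : Divisor Qb (FK N)) v = v.ord ((u : (FK N)ˣ) : FK N)) :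
    haveI := hasPrincipalDivisors_FK N
    kum0 (K := Qb) (F := FK N) m (Additive.ofMul u) = Pic0.mk D := by
  have := hasPrincipalDivisors_FK N
  rw [kum0_apply]
  congr 1
  apply Subtype.ext
  ext v
  have hm : (m : ℤ) ≠ 0 := Int.natCast_ne_zero.2 (NeZero.ne m)
  apply mul_left_cancel₀ hm
  show (m : ℤ) * divDiv m u v = _
  rw [mul_divDiv_apply, hD v]

/-- **membership in `M⁰_m`, divisor form** -/
theorem mem_M0_iff {m : ℕ} [NeZero m] {x : JZero N} :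
    x ∈ M0 V1 V2 m ↔ ∃ u : (FK N)ˣ, u ∈ goodUnits V1 V2 m ∧
      ∃ D : Divisor.degZero (K := Qb) (F := FK N),
        (∀ v : Place Qb (FK N), (m : ℤ) * (D : Divisor Qb (FK N)) v = v.ord (u : FK N)) ∧
        x = Pic0.mk D := by
  have := hasPrincipalDivisors_FK N
  rw [mem_M0]
  constructor
  · rintro ⟨u, hu, rfl⟩
    refine ⟨(u : (FK N)ˣ), hu, ⟨divDiv m u, degree_divDiv m u⟩, fun v => ?_, rfl⟩
    exact mul_divDiv_apply m u v
  · rintro ⟨u, hu, D, hD, rfl⟩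
    exact ⟨⟨u, hu.1⟩, hu, kum0_eq_mk ⟨u, hu.1⟩ D hD⟩

/-- `M⁰_m` is killed by `m` -/
theorem smul_eq_zero_of_mem_M0 {m : ℕ} [NeZero m] {x : JZero N} (hx : x ∈ M0 V1 V2 m) :
    (m : ℤ) • x = 0 := by
  have := hasPrincipalDivisors_FK N
  obtain ⟨u, -, rfl⟩ := mem_M0.1 hx
  exact Pic0.mem_torsion.1 (kum0_mem_torsion m u)

theorem M0_le_torsion (m : ℕ) [NeZero m] : M0 V1 V2 m ≤ Pic0.torsion Qb (FK N) m :=
  fun _ hx => Pic0.mem_torsion.2 (smul_eq_zero_of_mem_M0 hx)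

/-! ### the Galois action -/

/-- the Galois action on classes of units -/
theorem smul_kum0 {m : ℕ} [NeZero m] (σ : GQ) (u : pDivUnits Qb (FK N) m) :
    haveI := hasPrincipalDivisors_FK N
    σ • (kum0 (K := Qb) (F := FK N) m (Additive.ofMul u) : JZero N) =
      kum0 (K := Qb) (F := FK N) m
        (Additive.ofMul ⟨galUnits N σ u, galUnits_mem N m σ u u.2⟩) := by
  have := hasPrincipalDivisors_FK N
  have h := coe_kummerEquivFK_gal N m σ (Additive.ofMul (Kum.mk u))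
  rw [gal_mk, coe_kummerEquivFK_mk, coe_kummerEquivFK_mk] at h
  rw [kum0_apply, kum0_apply]
  exact h.symm

/-- **`M⁰_m` is stable under the decomposition group of `A`.** -/
theorem smul_mem_M0 {m : ℕ} [NeZero m] {σ : GQ} (hσ : σ ∈ A.decompositionSubgroup ℚ)
    {x : JZero N} (hx : x ∈ M0 V1 V2 m) : σ • x ∈ M0 V1 V2 m := by
  have := hasPrincipalDivisors_FK N
  obtain ⟨u, hu, hux⟩ := mem_M0.1 hx
  have hgood : galUnits N σ (u : (FK N)ˣ) ∈ goodUnits V1 V2 m := by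
    refine ⟨galUnits_mem N m σ u u.2, ?_, ?_⟩
    · rw [coe_galUnits]
      exact GalValF.isCstUnit_gal_dec hσ hu.2.1
    · rw [coe_galUnits]
      exact GalValF.isCstUnit_gal_dec hσ hu.2.2
  have h1 := smul_kum0 σ u
  rw [hux] at h1
  exact mem_M0.2 ⟨⟨galUnits N σ u, galUnits_mem N m σ u u.2⟩, hgood, h1.symm⟩

/-- every `m`-torsion class is the class of an `m`-divisible unit -/
theorem exists_kum0_eq {m : ℕ} [NeZero m] {x : JZero N} (hx : (m : ℤ) • x = 0) :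
    haveI := hasPrincipalDivisors_FK N
    ∃ u : pDivUnits Qb (FK N) m, kum0 (K := Qb) (F := FK N) m (Additive.ofMul u) = x := by
  have := hasPrincipalDivisors_FK N
  obtain ⟨y, hy⟩ := kum_surjective (K := Qb) (F := FK N) m ⟨x, Pic0.mem_torsion.2 hx⟩
  obtain ⟨u, rfl⟩ := exists_rep y
  refine ⟨u, ?_⟩
  have := congrArg (fun z : Pic0.torsion Qb (FK N) m => (z : Pic0 Qb (FK N))) hy
  exact this

/-- constants have trivial class -/
theorem kum0_cst {m : ℕ} [NeZero m] (c : pDivUnits Qb (FK N) m)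
    (hc : (c : (FK N)ˣ) ∈ cstUnits N) :
    haveI := hasPrincipalDivisors_FK N
    kum0 (K := Qb) (F := FK N) m (Additive.ofMul c) = 0 := by
  have := hasPrincipalDivisors_FK N
  obtain ⟨d, hd⟩ := cstUnits_pow (NeZero.ne m) (c : (FK N)ˣ) hc
  exact kum0_eq_zero_of_pow m c d hd

/-- **(U)**: for `σ` in the inertia group of `A ∣ q` and `x ∈ J₀(N)[m]`, `σ • x - x ∈ M⁰_m`. -/
theorem smul_sub_mem_M0 {q : ℕ} (hq : q.Prime) (hA : A.LiesOverPrime q) {m : ℕ} [NeZero m]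
    {σ : GQ} (hσ : σ ∈ A.inertiaSubgroupIn ℚ) {x : JZero N} (hx : (m : ℤ) • x = 0) :
    σ • x - x ∈ M0 V1 V2 m := by
  have := hasPrincipalDivisors_FK N
  obtain ⟨u, rfl⟩ := exists_kum0_eq hx
  obtain ⟨c, hc, hcu⟩ := norm_goodUnits V1 V2 hq hA (NeZero.ne m) (u : (FK N)ˣ) u.2
  have hcm : c ∈ pDivUnits Qb (FK N) m := cstUnits_le_pDivUnits (NeZero.ne m) hc
  set c' : pDivUnits Qb (FK N) m := ⟨c, hcm⟩ with hc'
  have h1 : kum0 (K := Qb) (F := FK N) m (Additive.ofMul u) =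
      kum0 (K := Qb) (F := FK N) m (Additive.ofMul (c' * u)) := by
    rw [ofMul_mul, map_add, kum0_cst c' hc, zero_add]
  rw [h1, smul_kum0, ← map_sub]
  refine mem_M0.2 ⟨⟨galUnits N σ (c * (u : (FK N)ˣ)) / (c * (u : (FK N)ˣ)),
    (hcu σ hσ).1⟩, hcu σ hσ, ?_⟩
  congr 1

/-! ### coherence of the family `M⁰_m` and the dévissage -/

omit [NeZero N] in
theorem isCstUnit_pow {V : GalVal N A} {y : FK N} (h : V.IsCstUnit y) (r : ℕ) :
    V.IsCstUnit (y ^ r) := by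
  induction r with
  | zero => rw [pow_zero]; exact V.isCstUnit_one
  | succ r ih => rw [pow_succ]; exact ih.mul h

omit [NeZero N] in
theorem ord_pow_unit (v : Place Qb (FK N)) (u : (FK N)ˣ) (r : ℕ) :
    v.ord (((u ^ r : (FK N)ˣ) : FK N)) = (r : ℤ) * v.ord (u : FK N) := by
  rw [Units.val_pow_eq_pow_val, ord_pow_natCast]

/-- `M⁰_d ≤ M⁰_m` for `d ∣ m` (take the `m/d`-th power of the generator) -/
theorem M0_mono {d m : ℕ} [NeZero d] [NeZero m] (hdm : d ∣ m) : M0 V1 V2 d ≤ M0 V1 V2 m := by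
  intro x hx
  obtain ⟨r, rfl⟩ := hdm
  obtain ⟨u, hu, D, hD, rfl⟩ := mem_M0_iff.1 hx
  have hord : ∀ v : Place Qb (FK N),
      ((d * r : ℕ) : ℤ) * (D : Divisor Qb (FK N)) v = v.ord ((u ^ r : (FK N)ˣ) : FK N) := by
    intro v
    rw [ord_pow_unit, ← hD v]
    push_cast
    ring
  refine mem_M0_iff.2 ⟨u ^ r, ⟨fun v => ⟨_, (hord v).symm⟩, ?_, ?_⟩, D, hord, rfl⟩
  · rw [Units.val_pow_eq_pow_val]; exact isCstUnit_pow hu.2.1 r
  · rw [Units.val_pow_eq_pow_val]; exact isCstUnit_pow hu.2.2 r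

/-- **`M⁰_m ∩ J[d] ≤ M⁰_d`** for `d ∣ m`: a `d`-torsion class with an admissible generator modulo
`m` has an admissible generator modulo `d` (an `m/d`-th root of the former). -/
theorem mem_M0_of_dvd_of_smul_eq_zero {d m : ℕ} [NeZero d] [NeZero m] (hdm : d ∣ m)
    {x : JZero N} (hx : x ∈ M0 V1 V2 m) (hdx : (d : ℤ) • x = 0) : x ∈ M0 V1 V2 d := by
  have := hasPrincipalDivisors_FK N
  obtain ⟨r, rfl⟩ := hdm
  have hr0 : r ≠ 0 := fun h => NeZero.ne (d * r) (by rw [h, mul_zero])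
  have : NeZero r := ⟨hr0⟩
  obtain ⟨u, hu, D, hD, rfl⟩ := mem_M0_iff.1 hx
  -- `d • D` is principal
  have h1 : Pic0.mk ((d : ℤ) • D) = 0 := hdx
  rw [mk_eq_zero_iff] at h1
  obtain ⟨f, hf, hfD⟩ := h1
  have hfD' : ∀ v : Place Qb (FK N), (d : ℤ) * (D : Divisor Qb (FK N)) v = v.ord f := by
    intro v
    rw [← hfD v]
    show (d : ℤ) * (D : Divisor Qb (FK N)) v = ((d : ℤ) • (D : Divisor Qb (FK N))) v
    rw [Finsupp.smul_apply, smul_eq_mul]
  -- `u / f ^ r` is a constant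
  have hfr : f ^ r ≠ 0 := pow_ne_zero r hf
  have hg0 : (u : FK N) * (f ^ r)⁻¹ ≠ 0 := mul_ne_zero u.ne_zero (inv_ne_zero hfr)
  have hg : ∀ v : Place Qb (FK N), v.ord ((u : FK N) * (f ^ r)⁻¹) = 0 := by
    intro v
    rw [v.ord_mul u.ne_zero (inv_ne_zero hfr), v.ord_inv, ord_pow_natCast, ← hD v, ← hfD' v]
    push_cast
    ring
  obtain ⟨c, hc⟩ := exists_const_FK N _ hg
  obtain ⟨c₁, hc₁⟩ := exists_root_Kb r c
  have hc0 : c ≠ 0 := by
    rintro rfl
    rw [map_zero] at hc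
    exact hg0 hc
  have hc₁0 : c₁ ≠ 0 := by
    rintro rfl
    rw [zero_pow hr0] at hc₁
    exact hc0 hc₁.symm
  -- the new generator
  set f₁ : FK N := algebraMap Qb (FK N) c₁ * f with hf₁
  have hf₁0 : f₁ ≠ 0 := mul_ne_zero ((map_ne_zero (algebraMap Qb (FK N))).2 hc₁0) hf
  have hpow : f₁ ^ r = (u : FK N) := by
    rw [hf₁, mul_pow, ← map_pow, hc₁, ← hc, mul_assoc, inv_mul_cancel₀ hfr, mul_one]
  have hord : ∀ v : Place Qb (FK N), (d : ℤ) * (D : Divisor Qb (FK N)) v = v.ord f₁ := by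
    intro v
    rw [hf₁, v.ord_mul ((map_ne_zero (algebraMap Qb (FK N))).2 hc₁0) hf, ord_algebraMap_const,
      zero_add, hfD' v]
  refine mem_M0_iff.2 ⟨Units.mk0 f₁ hf₁0, ⟨fun v => ⟨_, (hord v).symm⟩, ?_, ?_⟩, D, hord, rfl⟩
  · show V1.IsCstUnit f₁
    refine GalValF.isCstUnit_of_pow hr0 ?_
    rw [hpow]; exact hu.2.1
  · show V2.IsCstUnit f₁
    refine GalValF.isCstUnit_of_pow hr0 ?_
    rw [hpow]; exact hu.2.2

/-- **the family is coherent**: `M⁰_d = M⁰_m ∩ J[d]` for `d ∣ m`. -/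
theorem M0_eq_inf {d m : ℕ} [NeZero d] [NeZero m] (hdm : d ∣ m) :
    M0 V1 V2 d = M0 V1 V2 m ⊓ Pic0.torsion Qb (FK N) d := by
  apply le_antisymm
  · exact le_inf (M0_mono hdm) (M0_le_torsion d)
  · rintro x ⟨hx, hxd⟩
    exact mem_M0_of_dvd_of_smul_eq_zero hdm hx (Pic0.mem_torsion.1 hxd)

/-- **dévissage, same Kummer generator**: `x ∈ M⁰_{ab} ⟹ a • x ∈ M⁰_b`. -/
theorem nsmul_mem_M0 {a b : ℕ} [NeZero b] [NeZero (a * b)] {x : JZero N}
    (hx : x ∈ M0 V1 V2 (a * b)) : a • x ∈ M0 V1 V2 b := by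
  obtain ⟨u, hu, D, hD, rfl⟩ := mem_M0_iff.1 hx
  have hord : ∀ v : Place Qb (FK N),
      (b : ℤ) * ((a • D : Divisor.degZero (K := Qb) (F := FK N)) : Divisor Qb (FK N)) v =
        v.ord (u : FK N) := by
    intro v
    rw [← hD v]
    show (b : ℤ) * ((a • (D : Divisor Qb (FK N))) v) = _
    rw [Finsupp.smul_apply, nsmul_eq_mul]
    push_cast
    ring
  exact mem_M0_iff.2 ⟨u, ⟨fun v => ⟨_, (hord v).symm⟩, hu.2.1, hu.2.2⟩, a • D, hord, rfl⟩

/-- **dévissage at a prime power**: a `p^(j+1)`-torsion element of `M⁰_{p^k}` (`j < k`) has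
`p^j • x ∈ M⁰_p`.  So `x ↦ p^j • x` embeds the `j`-th graded piece of the `p`-adic filtration of
`M⁰_{p^k}` into `M⁰_p`, equivariantly for the decomposition group. -/
theorem pow_nsmul_mem_M0 {p : ℕ} [NeZero p] {k j : ℕ} (hjk : j < k) {x : JZero N}
    (hx : haveI : NeZero (p ^ k) := ⟨pow_ne_zero k (NeZero.ne p)⟩; x ∈ M0 V1 V2 (p ^ k))
    (hjx : ((p ^ (j + 1) : ℕ) : ℤ) • x = 0) : p ^ j • x ∈ M0 V1 V2 p := by
  have : NeZero (p ^ k) := ⟨pow_ne_zero k (NeZero.ne p)⟩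
  have : NeZero (p ^ (j + 1)) := ⟨pow_ne_zero _ (NeZero.ne p)⟩
  have : NeZero (p ^ j * p) := ⟨mul_ne_zero (pow_ne_zero _ (NeZero.ne p)) (NeZero.ne p)⟩
  have h1 : x ∈ M0 V1 V2 (p ^ (j + 1)) :=
    mem_M0_of_dvd_of_smul_eq_zero (pow_dvd_pow p hjk) hx hjx
  have h2 : x ∈ M0 V1 V2 (p ^ j * p) := by
    have e : p ^ (j + 1) = p ^ j * p := pow_succ p j
    convert h1 using 2
    exact e.symm
  exact nsmul_mem_M0 h2

end Fermat.Agent.GS.F
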