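/-
CELL-S / [F] (helper30), layer 3: **`M⁰` at the two Gauss valuations of `F_N` over `A ∣ q ∥ N`**
(`galVal1 N A`, `galVal2 N A h`, helper44 `GK/SS/GalValInst.lean`), in `JZero N` language, ready
for [ALG]/[SUBQ]/(NU) of helper60's DESIGN v1 (board 4918).  Valid for EVERY modulus `m ≠ 0`, in
particular `m = p ^ k` with `q = p` (the case of the frozen S33).

* `M0mod N A h m : AddSubgroup (JZero N)`;
* `mem_M0mod_iff` : `x ∈ M⁰_m ↔ ∃ u ∈ goodUnitsMod N A h m, ∃ D, m • D = div u ∧ x = [D]`;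
* `smul_eq_zero_of_mem_M0mod` : `M⁰_m ⊆ J₀(N)[m]`;
* `smul_mem_M0mod` : `D_A`-stable;
* `smul_sub_mem_M0mod` : **(U)** `σ ∈ I_A`, `m • x = 0 ⟹ σ • x - x ∈ M⁰_m`;
  `smul_sub_mem_M0mod_torsionBy` : the same with `x ∈ Submodule.torsionBy ℤ (JZero N) (p ^ k)`;
* `M0mod_eq_inf` : `M⁰_d = M⁰_m ⊓ J[d]` for `d ∣ m`;
* `pow_nsmul_mem_M0mod` : dévissage `x ∈ M⁰_{p^k}`, `p^(j+1) • x = 0`, `j < k ⟹ p^j • x ∈ M⁰_p`.
-/
import Fermat.Agent.GS.F.M0
import Fermat.Agent.GK.SS.GalValInst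

set_option autoImplicit false

noncomputable section

namespace Fermat.Agent.GS.F

open AlgebraicCurve ModularCurve Fermat.Agent.GJ.KumGroup
open Fermat.Agent.GK.SS Fermat.Agent.GK.AL

/-- `ℚ̄`. -/
local notation "Qb" => AlgebraicClosure ℚ
local notation "GQ" => (AlgebraicClosure ℚ ≃ₐ[ℚ] AlgebraicClosure ℚ)

variable (N : ℕ) [NeZero N] (A : ValuationSubring Qb) {q : ℕ} (h : ExactDvd q N)

/-- **`M⁰_m ⊆ J₀(N)(ℚ̄)[m]`** at `A ∣ q ∥ N`: the classes whose Kummer generator can be chosen with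
both Gauss valuations `0` and both reductions constant. -/
def M0mod (m : ℕ) [NeZero m] : AddSubgroup (JZero N) :=
  M0 (galVal1 N A) (galVal2 N A h) m

variable {N A h}

theorem mem_M0mod_iff {m : ℕ} [NeZero m] {x : JZero N} :
    x ∈ M0mod N A h m ↔ ∃ u : (FK N)ˣ, u ∈ goodUnitsMod N A h m ∧
      ∃ D : Divisor.degZero (K := Qb) (F := FK N),
        (∀ v : Place Qb (FK N), (m : ℤ) * (D : Divisor Qb (FK N)) v = v.ord (u : FK N)) ∧
        x = Pic0.mk D :=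
  mem_M0_iff

theorem smul_eq_zero_of_mem_M0mod {m : ℕ} [NeZero m] {x : JZero N} (hx : x ∈ M0mod N A h m) :
    (m : ℤ) • x = 0 :=
  smul_eq_zero_of_mem_M0 hx

/-- **`M⁰_m` is stable under the decomposition group.** -/
theorem smul_mem_M0mod {m : ℕ} [NeZero m] {σ : GQ} (hσ : σ ∈ A.decompositionSubgroup ℚ)
    {x : JZero N} (hx : x ∈ M0mod N A h m) : σ • x ∈ M0mod N A h m :=
  smul_mem_M0 hσ hx

/-- **(U)**: inertia moves `J₀(N)[m]` into `M⁰_m`. -/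
theorem smul_sub_mem_M0mod (hA : A.LiesOverPrime q) {m : ℕ} [NeZero m] {σ : GQ}
    (hσ : σ ∈ A.inertiaSubgroupIn ℚ) {x : JZero N} (hx : (m : ℤ) • x = 0) :
    σ • x - x ∈ M0mod N A h m :=
  smul_sub_mem_M0 h.prime hA hσ hx

/-- **(U)** in the spelling of the frozen statements (`Submodule.torsionBy ℤ (JZero N) (p ^ k)`). -/
theorem smul_sub_mem_M0mod_torsionBy (hA : A.LiesOverPrime q) {p : ℕ} [NeZero p] (k : ℕ) {σ : GQ}
    (hσ : σ ∈ A.inertiaSubgroupIn ℚ) {x : JZero N}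
    (hx : x ∈ Submodule.torsionBy ℤ (JZero N) ((p : ℤ) ^ k)) :
    haveI : NeZero (p ^ k) := ⟨pow_ne_zero k (NeZero.ne p)⟩
    σ • x - x ∈ M0mod N A h (p ^ k) := by
  have : NeZero (p ^ k) := ⟨pow_ne_zero k (NeZero.ne p)⟩
  refine smul_sub_mem_M0mod hA hσ ?_
  rw [Submodule.mem_torsionBy_iff] at hx
  rw [Nat.cast_pow]
  exact hx

theorem M0mod_mono {d m : ℕ} [NeZero d] [NeZero m] (hdm : d ∣ m) :
    M0mod N A h d ≤ M0mod N A h m :=
  M0_mono hdm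

/-- **coherence**: `M⁰_d = M⁰_m ∩ J[d]` for `d ∣ m`. -/
theorem M0mod_eq_inf {d m : ℕ} [NeZero d] [NeZero m] (hdm : d ∣ m) :
    M0mod N A h d = M0mod N A h m ⊓ Pic0.torsion Qb (FK N) d :=
  M0_eq_inf hdm

theorem nsmul_mem_M0mod {a b : ℕ} [NeZero b] [NeZero (a * b)] {x : JZero N}
    (hx : x ∈ M0mod N A h (a * b)) : a • x ∈ M0mod N A h b :=
  nsmul_mem_M0 hx

/-- **dévissage**: every graded piece of the `p`-adic filtration of `M⁰_{p^k}` embeds into `M⁰_p`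
by `x ↦ p^j • x`. -/
theorem pow_nsmul_mem_M0mod {p : ℕ} [NeZero p] {k j : ℕ} (hjk : j < k) {x : JZero N}
    (hx : haveI : NeZero (p ^ k) := ⟨pow_ne_zero k (NeZero.ne p)⟩; x ∈ M0mod N A h (p ^ k))
    (hjx : ((p ^ (j + 1) : ℕ) : ℤ) • x = 0) : p ^ j • x ∈ M0mod N A h p :=
  pow_nsmul_mem_M0 hjk hx hjx

end Fermat.Agent.GS.F
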