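/-
CELL-S / GATE-S, [F] ⟶ [KER] seam (helper30): **every class of `M⁰_m` has an ADMISSIBLE Kummer
generator in the two-valuation vocabulary of the nodal frame** (`ball2`, `red2` of helper90's
`GK/MultiVal/TwoRedData` at `R1 := redDataBar N A`, `R2 := redData2 N A h`).

`exists_adm_of_mem_M0mod` : `x ∈ M0mod N A h m ⟹ ∃ u ≠ 0, u ∈ ball2 R1 R2,
  red2 u = (c₁, c₂)` with NONZERO CONSTANTS `c₁ c₂ : ResidueField A`, and `D` of degree `0` with
  `m • D = div u`, `x = [D]`.

This is the input `hadm` of the [KER] node (board 5077: `M⁰_1` lands in chart form).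
-/
import Fermat.Agent.GS.F.Modular
import Fermat.Agent.GK.SS.CstRedInst
import Fermat.Agent.GK.MultiVal.TwoRedData

set_option autoImplicit false

noncomputable section

namespace Fermat.Agent.GS.F

open AlgebraicCurve ModularCurve Fermat.Agent.GJ.KumGroup IsLocalRing
open Fermat.Agent.GK.SS Fermat.Agent.GK.AL Fermat.Agent.GK.MultiVal
open Fermat.Agent.GJ.J1 Fermat.Agent.GJ.J1.Val

/-- `ℚ̄`. -/
local notation "Qb" => AlgebraicClosure ℚ

variable {N : ℕ} [NeZero N] {A : ValuationSubring Qb} {q : ℕ} {h : ExactDvd q N}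

/-- an admissible unit lies in the common unit ball and reduces to a pair of nonzero constants -/
theorem red2_of_mem_goodUnitsMod {m : ℕ} {u : (FK N)ˣ} (hu : u ∈ goodUnitsMod N A h m) :
    ∃ (hB : (u : FK N) ∈ ball2 (redDataBar N A) (redData2 N A h)) (c₁ c₂ : ResidueField A),
      c₁ ≠ 0 ∧ c₂ ≠ 0 ∧
      red2 (redDataBar N A) (redData2 N A h) ⟨(u : FK N), hB⟩ =
        (algebraMap (ResidueField A) (FresBar N A) c₁,
          algebraMap (ResidueField A) (FresBar N A) c₂) := by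
  obtain ⟨h1, e1⟩ := red1_goodUnitsMod N A h hu
  obtain ⟨h2, e2⟩ := red2_goodUnitsMod N A h hu
  refine ⟨mem_ball2.2 ⟨h1, h2⟩, _, _, cstRed1_ne_zero_goodUnitsMod N A h hu,
    cstRed2_ne_zero_goodUnitsMod N A h hu, ?_⟩
  rw [red2_mk h1 h2, e1, e2]

/-- **the [KER] input**: a class of `M⁰_m` is `[D]` with `m • D = div u` for a common unit `u` of the
two Gauss valuations reducing to a pair of nonzero constants. -/
theorem exists_adm_of_mem_M0mod {m : ℕ} [NeZero m] {x : JZero N} (hx : x ∈ M0mod N A h m) :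
    ∃ (u : FK N) (_ : u ≠ 0) (hB : u ∈ ball2 (redDataBar N A) (redData2 N A h))
      (c₁ c₂ : ResidueField A), c₁ ≠ 0 ∧ c₂ ≠ 0 ∧
      red2 (redDataBar N A) (redData2 N A h) ⟨u, hB⟩ =
        (algebraMap (ResidueField A) (FresBar N A) c₁,
          algebraMap (ResidueField A) (FresBar N A) c₂) ∧
      ∃ D : Divisor.degZero (K := Qb) (F := FK N),
        (∀ v : Place Qb (FK N), (m : ℤ) * (D : Divisor Qb (FK N)) v = v.ord u) ∧
        x = Pic0.mk D := by
  obtain ⟨u, hu, D, hD, rfl⟩ := mem_M0mod_iff.1 hx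
  obtain ⟨hB, c₁, c₂, hc₁, hc₂, hred⟩ := red2_of_mem_goodUnitsMod hu
  exact ⟨(u : FK N), u.ne_zero, hB, c₁, c₂, hc₁, hc₂, hred, D, hD, rfl⟩

end Fermat.Agent.GS.F
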