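/-
GATE-S (S33) / [F] ⟶ [KER] bridge (helper30): **helper71's `[KER]` theorem
`GS/Loc2/KerStar.coordExists_of_glued` specialised to the modular frame and to `𝒦 := M⁰_p`.**

`R1 := redDataBar N A`, `R2 := redData2 N A h` the two Gauss reduction data of `F_N` at `A ∣ p ∥ N`
(the frame of helper86's `GS/Nodal/Inst`), `k = ResidueField A`.

* `isCst_of_red_eq`            : `red u = c ≠ 0` constant `⟹ Ker.IsCst R u`;
* `adm2_of_mem_goodUnitsMod`   : an admissible unit of the (SS) package is `Ker.Adm2 R1 R2`;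
* `M0mod_subset_admClasses`    : `(M⁰_m : Set (JZero N)) ⊆ Ker.admClasses (Ker.Adm2 R1 R2) m`;
* `coordExists_mono`           : `CoordExists` is antitone in `𝒦`;
* `unram_redDataBar`, `unram_redData2` : the binders `unram1`, `unram2` (= `GalVal.unram`);
* `charP_res`, `hperf_res`     : `ResidueField A` has characteristic `p` and is perfect
  (algebraically closed);
* `coordExists_M0mod_of_adm`   : `CoordExists Φ n (admClasses (Adm2 R1 R2) p) ⟹ CoordExists Φ n M⁰_p`
  (plug for the conclusion of `GS/Loc2/KerNodal.coordExists_nodal`);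
* `coordExists_M0mod_of_glued` : **[KER] for `M⁰_p` on the modular frame** — the frame-side binders
  left are `hF : DiscFacts Φ`, `hn`, the nodes of degree one, `hchart` [(L5) + (NS)] and `hFF`
  [(FF2) at constants], verbatim as in `coordExists_of_glued`; conclusion = the `CoordExists` conjunct
  of `GS/Top/FramePlug.FrameNode` verbatim.
-/
import Fermat.Agent.GS.F.Adm
import Fermat.Agent.GS.Loc2.KerStar
import Fermat.Agent.GK.Flat.BallTwo
import Fermat.Agent.GJ.J1.ResidueAlgClosed

set_option autoImplicit false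
set_option linter.unusedSectionVars false

noncomputable section

namespace Fermat.Agent.GS.F

open AlgebraicCurve ModularCurve Fermat.Agent.GJ.KumGroup IsLocalRing
open Fermat.Agent.GK.SS Fermat.Agent.GK.AL Fermat.Agent.GK.MultiVal
open Fermat.Agent.GJ.J1 Fermat.Agent.GJ.J1.Val Fermat.Agent.GS.Frame Fermat.Agent.GS.Loc2.Ker
open Fermat.Agent.GS.Nodal.LSR2 Fermat.Agent.GK.BallTwo

open scoped Classical

/-- `ℚ̄`. -/
local notation "Qb" => AlgebraicClosure ℚ

section Abstract

variable {K F k Ft : Type*} [Field K] [Field F] [Algebra K F] [Field k] [Field Ft] [Algebra k Ft]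

/-- a unit with nonzero constant reduction is `IsCst`. -/
theorem isCst_of_red_eq {R : RedData K F k Ft} {u : F} (hu : u ∈ R.Rw) {c : k} (hc : c ≠ 0)
    (hred : R.red ⟨u, hu⟩ = algebraMap k Ft c) : IsCst R u :=
  isCst_iff.2 ⟨hu, c, hc, hred⟩

variable {Sp 𝒬 : Type*} [CommRing Sp] [Algebra k Sp]

/-- `CoordExists` is antitone in the set of classes. -/
theorem coordExists_mono {Φ : DiscData K F k Sp 𝒬} {n : ℕ} {𝒦 𝒦' : Set (Pic0 K F)}
    (hsub : 𝒦 ⊆ 𝒦') (h : CoordExists Φ n 𝒦') : CoordExists Φ n 𝒦 :=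
  fun 𝔠 ξ hξ => h 𝔠 ξ (hsub hξ)

end Abstract

variable {N : ℕ} [NeZero N] {A : ValuationSubring Qb} {q : ℕ} {h : ExactDvd q N}

/-- an admissible unit of the (SS) package is admissible for both valuations in the sense of
`GS/Loc2/KerStar`. -/
theorem adm2_of_mem_goodUnitsMod {m : ℕ} {u : (FK N)ˣ} (hu : u ∈ goodUnitsMod N A h m) :
    Adm2 (redDataBar N A) (redData2 N A h) (u : FK N) := by
  obtain ⟨h1, e1⟩ := red1_goodUnitsMod N A h hu
  obtain ⟨h2, e2⟩ := red2_goodUnitsMod N A h hu
  exact ⟨isCst_of_red_eq h1 (cstRed1_ne_zero_goodUnitsMod N A h hu) e1,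
    isCst_of_red_eq h2 (cstRed2_ne_zero_goodUnitsMod N A h hu) e2⟩

/-- **the `M⁰` bridge**: `M⁰_m` consists of admissible classes. -/
theorem M0mod_subset_admClasses {m : ℕ} [NeZero m] :
    ((M0mod N A h m : AddSubgroup (JZero N)) : Set (JZero N)) ⊆
      admClasses (K := Qb) (F := FK N) (Adm2 (redDataBar N A) (redData2 N A h)) m := by
  intro x hx
  obtain ⟨u, hu, D, hD, rfl⟩ := mem_M0mod_iff.1 hx
  exact ⟨(u : FK N), u.ne_zero, adm2_of_mem_goodUnitsMod hu, D, hD, rfl⟩

variable (N A)

/-- the binder `unram1` of `coordExists_of_glued` at the first Gauss valuation. -/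
theorem unram_redDataBar : ∀ y : FK N, y ≠ 0 → ∃ c : Qb, c ≠ 0 ∧
    algebraMap Qb (FK N) c * y ∈ (redDataBar N A).Rw ∧
    (algebraMap Qb (FK N) c * y)⁻¹ ∈ (redDataBar N A).Rw :=
  (galVal1 N A).unram

/-- the binder `unram2` of `coordExists_of_glued` at the second Gauss valuation. -/
theorem unram_redData2 (h : ExactDvd q N) : ∀ y : FK N, y ≠ 0 → ∃ c : Qb, c ≠ 0 ∧
    algebraMap Qb (FK N) c * y ∈ (redData2 N A h).Rw ∧
    (algebraMap Qb (FK N) c * y)⁻¹ ∈ (redData2 N A h).Rw :=
  (galVal2 N A h).unram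

variable {N}

/-- the residue characteristic. -/
theorem charP_res {p : ℕ} (hp : p.Prime) (hA : A.LiesOverPrime p) :
    CharP (ResidueField A) p := by
  have h1 : ((p : ℕ) : ResidueField A) = 0 := by
    have h2 : residue A ((p : ℕ) : A) = 0 := by
      rw [residue_eq_zero_iff, mem_maximalIdeal, mem_nonunits_iff]
      intro hu
      have h3 : (((p : ℕ) : A) : Qb) ∈ A.nonunits := by
        rw [show (((p : ℕ) : A) : Qb) = (p : Qb) from by simp]
        exact hA
      rw [ValuationSubring.mem_nonunits_iff_exists_mem_maximalIdeal] at h3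
      obtain ⟨hmem, hmax⟩ := h3
      exact ((mem_maximalIdeal _).1 hmax) hu
    rw [map_natCast] at h2
    exact h2
  have h2 := CharP.ringChar_of_prime_eq_zero hp h1
  have h3 : CharP (ResidueField A) (ringChar (ResidueField A)) := ringChar.charP _
  rwa [h2] at h3

/-- the residue field is perfect (it is algebraically closed). -/
theorem hperf_res {p : ℕ} (hp : 0 < p) : ∀ c : ResidueField A, ∃ κ : ResidueField A, κ ^ p = c := by
  have : IsAlgClosed (ResidueField A) :=
    Fermat.Agent.GJ.ResidueAlgClosed.isAlgClosed_residueField A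
  intro c
  exact IsAlgClosed.exists_pow_nat_eq c hp

variable {A}

/-- `CoordExists` for the admissible classes gives `CoordExists` for `M⁰_p` (the conjunct of
`GS/Top/FramePlug.FrameNode`), on ANY disc frame of `F_N` (e.g. the conclusion of
`GS/Loc2/KerNodal.coordExists_nodal`). -/
theorem coordExists_M0mod_of_adm {p : ℕ} (h : ExactDvd p N)
    {k Sp 𝒬 : Type*} [Field k] [CommRing Sp] [Algebra k Sp]
    {Φ : DiscData Qb (FK N) k Sp 𝒬} {n : ℕ}
    (hK : CoordExists Φ n
      (admClasses (K := Qb) (F := FK N) (Adm2 (redDataBar N A) (redData2 N A h)) p)) :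
    haveI : NeZero p := ⟨h.prime.ne_zero⟩
    CoordExists Φ n ((M0mod N A h p : AddSubgroup (JZero N)) : Set (JZero N)) := by
  have hne : NeZero p := ⟨h.prime.ne_zero⟩
  exact coordExists_mono M0mod_subset_admClasses hK

/-- **[KER] for `M⁰_p` on the modular frame**: helper71's `coordExists_of_glued` with `unram1`,
`unram2`, `hperf`, the residue characteristic and the `M⁰` bridge discharged. -/
theorem coordExists_M0mod_of_glued {p : ℕ} (h : ExactDvd p N) (hA : A.LiesOverPrime p)
    {Sp 𝒬 ι : Type*} [CommRing Sp] [Algebra (ResidueField A) Sp]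
    {P Q : ι → Place (ResidueField A) (FresBar N A)}
    {Φ : DiscData Qb (FK N) (ResidueField A) Sp 𝒬} (hF : DiscFacts Φ)
    {n : ℕ} (hn : (n : ℤ) = Φ.g)
    (hP : ∀ j, (P j).deg = 1) (hQ : ∀ j, (Q j).deg = 1)
    (hchart : ∀ 𝔠 : Chart Φ n, ∃ (E₁ : Divisor (ResidueField A) (FresBar N A))
      (E₂ : Divisor (ResidueField A) (FresBar N A)),
      (∀ z ∈ glued P Q E₁ E₂, ∃ d : ResidueField A,
        z = (algebraMap (ResidueField A) (FresBar N A) d,
          algebraMap (ResidueField A) (FresBar N A) d)) ∧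
      ∀ (x : FK N) (h1 : x ∈ (redDataBar N A).Rw) (h2 : x ∈ (redData2 N A h).Rw),
        x ∈ riemannRochSpace ((p : ℤ) • 𝔠.D0) →
        ((redDataBar N A).red ⟨x, h1⟩, (redData2 N A h).red ⟨x, h2⟩) ∈
          glued P Q ((p : ℤ) • E₁) ((p : ℤ) • E₂))
    (hFF : ∀ y : FK N, Adm2 (redDataBar N A) (redData2 N A h) y →
      ∀ Dy : Divisor Qb (FK N), (∀ v : Place Qb (FK N), Dy v = v.ord y) →
      ∀ Q' : 𝒬, ∑ P' ∈ Dy.support.filter (fun P' => P' ∈ Φ.disc Q'), Dy P' = 0) :
    haveI : NeZero p := ⟨h.prime.ne_zero⟩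
    CoordExists Φ n ((M0mod N A h p : AddSubgroup (JZero N)) : Set (JZero N)) := by
  have hne : NeZero p := ⟨h.prime.ne_zero⟩
  have : Fact p.Prime := ⟨h.prime⟩
  have : CharP (ResidueField A) p := charP_res A h.prime hA
  exact coordExists_mono M0mod_subset_admClasses
    (coordExists_of_glued (redCompatFN N A h) hF hn p (hperf_res A h.prime.pos) hP hQ
      (unram_redDataBar N A) (unram_redData2 N A h) hchart hFF)

end Fermat.Agent.GS.F
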