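/-
GATE-S (S33) / sub-assembly A2 [KER], plug (helper30, second seat of helper71's GS-TOP-INST-KER):
**`CoordExists (nodalData H hFF) n M⁰_p` on the modular nodal frame**, for EVERY
`H : NodalHyp (redCompatFN N A h) P Q C C₁ C₂ g c n₀` and every fibre formula `hFF`
(in particular helper26's `Fib.ff2 H`).

Composition of helper71's `GS/Loc2/KerNodal.coordExists_nodal`, helper16's
`GS/Nodal/DiscFacts2.{glueHyp_nodal, discFacts_nodal}` and `GS/F/KerBridge`
(`M⁰` bridge, `unram1/2`, `hperf`, residue characteristic).  The conclusion is the `CoordExists`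
conjunct of `GS/Top/FramePlug.FrameNode` at `Φ := nodalData H hFF`.
-/
import Fermat.Agent.GS.F.KerBridge
import Fermat.Agent.GS.Loc2.KerNodal
import Fermat.Agent.GS.Nodal.DiscFacts2

set_option autoImplicit false
set_option linter.unusedSectionVars false

noncomputable section

namespace Fermat.Agent.GS.F.A2Plug

open AlgebraicCurve ModularCurve Fermat.Agent.GJ.KumGroup IsLocalRing
open Fermat.Agent.GK.SS Fermat.Agent.GK.AL Fermat.Agent.GK.MultiVal
open Fermat.Agent.GJ.J1 Fermat.Agent.GJ.J1.Val Fermat.Agent.GS.Frame Fermat.Agent.GS.Loc2.Ker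
open Fermat.Agent.GS.Nodal.LSR2 Fermat.Agent.GK.BallTwo Fermat.Agent.RRh45
open Fermat.Agent.GS.Nodal.ROfSurj2 Fermat.Agent.GS.Nodal.DiscFacts2

open scoped Classical

/-- `ℚ̄`. -/
local notation "Qb" => AlgebraicClosure ℚ

variable {N : ℕ} [NeZero N] {A : ValuationSubring Qb} {p : ℕ} [NeZero p] (h : ExactDvd p N)
variable {ι : Type*} [Finite ι] {P Q : ι → Place (ResidueField A) (FresBar N A)}
variable {C : Divisor Qb (FK N)} {C₁ C₂ : Divisor (ResidueField A) (FresBar N A)} {g c : ℤ} {n₀ : ℕ}
variable [FiniteResidues Qb (FK N)] [HasPrincipalDivisors Qb (FK N)] [Nonempty (Place Qb (FK N))]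
variable [FiniteResidues (ResidueField A) (FresBar N A)]
  [HasPrincipalDivisors (ResidueField A) (FresBar N A)]
  [Nonempty (Place (ResidueField A) (FresBar N A))]
variable [Infinite (ResidueField A)]
variable {S1 S2 : Set (Place (ResidueField A) (FresBar N A))}

/-- **A2**: `[KER]` for `M⁰_p` on the nodal disc frame of the modular curve. -/
theorem coordExists_M0mod_nodal (hA : A.LiesOverPrime p)
    (H : NodalHyp (redCompatFN N A h) P Q C C₁ C₂ g c n₀)
    (hFF : FF2 (redDataBar N A) (redData2 N A h) (disc1 H) (disc2 H) S1 S2)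
    {n : ℕ} (hn : (n : ℤ) = g)
    (hP : ∀ j, (P j).deg = 1) (hQ : ∀ j, (Q j).deg = 1) :
    CoordExists (nodalData H hFF) n ((M0mod N A h p : AddSubgroup (JZero N)) : Set (JZero N)) := by
  have : Fact p.Prime := ⟨h.prime⟩
  have : CharP (ResidueField A) p := charP_res A h.prime hA
  exact coordExists_M0mod_of_adm h
    (coordExists_nodal H hFF (Fermat.Agent.GS.Nodal.L5.hexcl_of_nodal H hFF) g
      (glueHyp_nodal H hFF) (discFacts_nodal H hFF) hn p (hperf_res A h.prime.pos) hP hQ
      (unram_redDataBar N A) (unram_redData2 N A h))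

end Fermat.Agent.GS.F.A2Plug
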