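/-
CELL-S / [F] (helper30), layer 4: **the plug of `M⁰` into helper93's `[ALG]` glue**
(`GS/Old/OrdSubquot.isOrdinaryAt_of_isSubquotPow`) on the level modules of helper96's `[SUBQ]`
(`GS/SubQ.isSubquotPow_levelAction_of_mem`: `M = Tors N (p ^ n)`, `act = torsAct`).

Everything is reduced to ONE statement, the (NU) of helper60's DESIGN v1 (board 4918) at level `1`:

  `NU1 N A h p := HasCE (I_A) (σ • ·) (M⁰_p)`     (no `I_A`-trivial subquotient in `M⁰_p ⊆ J₀(N)[p]`).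

* `M0pow N A h p k : AddSubgroup (JZero N)` := `M⁰_{p^k}`; `M0pow_zero`, `nsmul_mem_M0pow`,
  `mem_M0pow_one_of_nsmul_eq_zero` : the hypotheses of helper93's `hasCE_family`;
* `hasCE_M0pow` : `NU1 ⟹ HasCE I_A (σ • ·) (M⁰_{p^k})` for all `k` (dévissage);
* `M0tors N A h p k : AddSubgroup (Tors N (p ^ k))` and **`plug_M0tors`** : the four conjuncts
  (additivity, `I_A`-stability, (U), `HasCE`) of `isOrdinaryAt_of_isSubquotPow`'s `hsub`, from `NU1`.
-/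
import Fermat.Agent.GS.F.Modular
import Fermat.Agent.GS.Old.CeDevissage
import Fermat.Agent.GH.Top.Tors

set_option autoImplicit false

noncomputable section

namespace Fermat.Agent.GS.F

open AlgebraicCurve ModularCurve Fermat.Agent.GJ.KumGroup
open Fermat.Agent.GK.SS Fermat.Agent.GK.AL Fermat.Agent.GS.Old Fermat.Agent.GH.Top

/-- `ℚ̄`. -/
local notation "Qb" => AlgebraicClosure ℚ
local notation "GQ" => (AlgebraicClosure ℚ ≃ₐ[ℚ] AlgebraicClosure ℚ)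

variable (N : ℕ) [NeZero N] (A : ValuationSubring Qb) {q : ℕ} (h : ExactDvd q N)

/-- the family `k ↦ M⁰_{p^k}` of subgroups of `J₀(N)(ℚ̄)` -/
def M0pow (p : ℕ) [NeZero p] (k : ℕ) : AddSubgroup (JZero N) :=
  haveI : NeZero (p ^ k) := ⟨pow_ne_zero k (NeZero.ne p)⟩
  M0mod N A h (p ^ k)

/-- **(NU) at level one**: `M⁰_p` has no subquotient with trivial action of the inertia group. -/
def NU1 (p : ℕ) [NeZero p] : Prop :=
  HasCE (A.inertiaSubgroupIn ℚ : Set GQ) (fun (σ : GQ) (x : JZero N) => σ • x) (M0pow N A h p 1)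

variable {N A h}

theorem M0pow_zero (p : ℕ) [NeZero p] : M0pow N A h p 0 = ⊥ := by
  rw [eq_bot_iff]
  intro x hx
  have h1 : ((p ^ 0 : ℕ) : ℤ) • x = 0 := smul_eq_zero_of_mem_M0mod hx
  rw [pow_zero, Nat.cast_one, one_smul] at h1
  exact h1

theorem smul_mem_M0pow {p : ℕ} [NeZero p] {k : ℕ} {σ : GQ} (hσ : σ ∈ A.decompositionSubgroup ℚ)
    {x : JZero N} (hx : x ∈ M0pow N A h p k) : σ • x ∈ M0pow N A h p k :=
  smul_mem_M0mod hσ hx

theorem nsmul_mem_M0pow {p : ℕ} [NeZero p] {k : ℕ} {x : JZero N}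
    (hx : x ∈ M0pow N A h p (k + 1)) : p • x ∈ M0pow N A h p k := by
  have : NeZero (p ^ k) := ⟨pow_ne_zero k (NeZero.ne p)⟩
  have : NeZero (p ^ (k + 1)) := ⟨pow_ne_zero _ (NeZero.ne p)⟩
  have : NeZero (p * p ^ k) := ⟨mul_ne_zero (NeZero.ne p) (pow_ne_zero _ (NeZero.ne p))⟩
  have h2 : x ∈ M0mod N A h (p * p ^ k) := by
    have e : p ^ (k + 1) = p * p ^ k := pow_succ' p k
    have hx' : x ∈ M0mod N A h (p ^ (k + 1)) := hx
    convert hx' using 2
    exact e.symm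
  exact nsmul_mem_M0mod h2

theorem mem_M0pow_one_of_nsmul_eq_zero {p : ℕ} [NeZero p] {k : ℕ} {x : JZero N}
    (hx : x ∈ M0pow N A h p (k + 1)) (hpx : p • x = 0) : x ∈ M0pow N A h p 1 := by
  have : NeZero (p ^ (k + 1)) := ⟨pow_ne_zero _ (NeZero.ne p)⟩
  have : NeZero (p ^ 1) := ⟨pow_ne_zero _ (NeZero.ne p)⟩
  refine mem_M0_of_dvd_of_smul_eq_zero (pow_dvd_pow p (Nat.succ_le_succ (Nat.zero_le k))) hx ?_
  rw [pow_one, natCast_zsmul]
  exact hpx

/-- **dévissage**: (NU) at level one gives (CE) for every `M⁰_{p^k}` inside `J₀(N)(ℚ̄)`. -/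
theorem hasCE_M0pow {p : ℕ} [NeZero p] (h1 : NU1 N A h p) (k : ℕ) :
    HasCE (A.inertiaSubgroupIn ℚ : Set GQ) (fun (σ : GQ) (x : JZero N) => σ • x)
      (M0pow N A h p k) :=
  hasCE_family (fun k => M0pow N A h p k) p (fun σ _ x y => smul_add σ x y)
    (fun _ _ hσ _ hx => smul_mem_M0pow
      (Fermat.Agent.S05.mem_decompositionSubgroup_of_mem_inertiaSubgroupIn hσ) hx)
    (M0pow_zero p) (fun _ _ hw => nsmul_mem_M0pow hw)
    (fun _ _ hw hpw => mem_M0pow_one_of_nsmul_eq_zero hw hpw) h1 k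

variable (N A h)

/-- `M⁰_{p^k}` inside the level module `Tors N (p ^ k) = J₀(N)[p^k]` of `[SUBQ]` -/
def M0tors (p : ℕ) [NeZero p] (k : ℕ) : AddSubgroup (Tors N ((p : ℤ) ^ k)) :=
  (M0pow N A h p k).comap (Submodule.torsionBy ℤ (JZero N) ((p : ℤ) ^ k)).subtype.toAddMonoidHom

variable {N A h}

theorem mem_M0tors {p : ℕ} [NeZero p] {k : ℕ} {x : Tors N ((p : ℤ) ^ k)} :
    x ∈ M0tors N A h p k ↔ (x : JZero N) ∈ M0pow N A h p k := Iff.rfl

/-- (CE) passes from the ambient group to a subgroup containing `W` -/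
theorem hasCE_comap_subtype {G : Type*} {M : Type*} [AddCommGroup M] {I : Set G}
    {act : G → M → M} (T : AddSubgroup M) (hT : ∀ g, ∀ x ∈ T, act g x ∈ T) {W : AddSubgroup M}
    (hW : HasCE I act W) :
    HasCE I (fun g (x : T) => (⟨act g x, hT g x x.2⟩ : T)) (W.comap T.subtype) := by
  intro N' hN' w hw hwN
  have h1 : (w : M) ∈ N'.map T.subtype := by
    refine hW (N'.map T.subtype) ?_ (w : M) hw ?_
    · rintro g hg _ ⟨u, hu, rfl⟩
      exact ⟨⟨act g u, hT g u u.2⟩, hN' g hg u hu, rfl⟩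
    · intro g hg
      exact ⟨_, hwN g hg, rfl⟩
  obtain ⟨u, hu, huw⟩ := h1
  have : u = w := Subtype.ext huw
  rw [← this]
  exact hu

/-- **THE PLUG**: the four `M₀`-conjuncts of `hsub` in helper93's
`isOrdinaryAt_of_isSubquotPow`, for `M := Tors N (p ^ k)`, `act := torsAct`, `M₀ := M0tors`, from
(NU) at level one. -/
theorem plug_M0tors (hA : A.LiesOverPrime q) {p : ℕ} [NeZero p] (h1 : NU1 N A h p) (k : ℕ) :
    (∀ σ ∈ A.inertiaSubgroupIn ℚ, ∀ x y : Tors N ((p : ℤ) ^ k),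
      torsAct N ((p : ℤ) ^ k) σ (x + y) =
        torsAct N ((p : ℤ) ^ k) σ x + torsAct N ((p : ℤ) ^ k) σ y) ∧
    (∀ σ ∈ A.inertiaSubgroupIn ℚ, ∀ x ∈ M0tors N A h p k,
      torsAct N ((p : ℤ) ^ k) σ x ∈ M0tors N A h p k) ∧
    (∀ σ ∈ A.inertiaSubgroupIn ℚ, ∀ x : Tors N ((p : ℤ) ^ k),
      torsAct N ((p : ℤ) ^ k) σ x - x ∈ M0tors N A h p k) ∧
    HasCE (A.inertiaSubgroupIn ℚ : Set GQ)
      (fun (σ : GQ) (x : Tors N ((p : ℤ) ^ k)) => torsAct N ((p : ℤ) ^ k) σ x)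
      (M0tors N A h p k) := by
  refine ⟨fun σ _ x y => map_add _ x y, ?_, ?_, ?_⟩
  · intro σ hσ x hx
    exact smul_mem_M0pow
      (Fermat.Agent.S05.mem_decompositionSubgroup_of_mem_inertiaSubgroupIn hσ) (mem_M0tors.1 hx)
  · intro σ hσ x
    exact smul_sub_mem_M0mod_torsionBy hA k hσ x.2
  · exact hasCE_comap_subtype (Submodule.torsionBy ℤ (JZero N) ((p : ℤ) ^ k)).toAddSubgroup
      (fun σ x hx => smul_mem_torsionBy N ((p : ℤ) ^ k) σ x hx) (hasCE_M0pow h1 k)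

end Fermat.Agent.GS.F
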