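/-
CELL-S / [F] (helper30), layer 5: **statement-level plug of the GATE-S chain**
`[SUBQ]` (helper96 `GS/SubQ`) + `[F]` (`GS/F/Plug.plug_M0tors`) + `[ALG]` glue (helper93
`GS/Old/OrdSubquot.isOrdinaryAt_of_isSubquotPow`):

  frozen-S33 binders + `hfin` + `hshape` (= `[RES]` + `hres`, helper93/helper67/helper79)
    + `∀ P ∣ p, NU1 N P ⟨hp, hN⟩ p`   ⟹   `H.ρ.IsOrdinaryAt p`.

So after this file the ONLY geometric input of S33 is (NU) at level one: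
"`M⁰_p ⊆ J₀(N)[p]` has no subquotient with trivial inertia action".
-/
import Fermat.Agent.GS.F.Plug
import Fermat.Agent.GS.SubQ
import Fermat.Agent.GS.Old.OrdSubquot

set_option autoImplicit false

open CuspForm ModularCurve

namespace Fermat.Agent.GS.F

open Fermat.Agent.GH Fermat.Agent.GH.S32 Fermat.Agent.GH.Top Fermat.Agent.GS.Old
open Fermat.Agent.GK.AL IsLocalRing

local notation "GQ" => (AlgebraicClosure ℚ ≃ₐ[ℚ] AlgebraicClosure ℚ)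

variable {p : ℕ} {N : ℕ} [NeZero N] {S : Finset ℕ}
  {𝒪 : Type} [CommRing 𝒪] [IsDomain 𝒪] [IsDiscreteValuationRing 𝒪]
  [IsAdicComplete (IsLocalRing.maximalIdeal 𝒪) 𝒪]
  {θ : CuspForm.heckeAlgebra N 2 (↑S : Set ℕ) →+* IsLocalRing.ResidueField 𝒪}
  {T : Type} [CommRing T] [IsLocalRing T] [IsNoetherianRing T]
  [IsAdicComplete (IsLocalRing.maximalIdeal T) T] [Algebra 𝒪 T] [IsLocalHom (algebraMap 𝒪 T)]
  [Module.Finite 𝒪 T] [Module.Free 𝒪 T]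

/-- **S33 from (NU) at level one** (+ the residual shape and finiteness of the levels). -/
theorem isOrdinaryAt_of_NU1
    [Finite (IsLocalRing.ResidueField 𝒪)] [CharZero 𝒪]
    (hp : p.Prime) (hp2 : p ≠ 2) (hp𝒪 : (p : 𝒪) ∈ IsLocalRing.maximalIdeal 𝒪)
    (hN : p ∣ N ∧ ¬ p ^ 2 ∣ N)
    (hNS : ∀ q : ℕ, q.Prime → q ∣ N → q ∈ S)
    (H : CuspForm.HeckeGaloisRepDatum N (↑S : Set ℕ) 𝒪 θ T)
    (hfin : ∀ n : ℕ, Finite (T ⧸ maximalIdeal T ^ n))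
    (hshape : ∀ P : ValuationSubring (AlgebraicClosure ℚ), P.LiesOverPrime p →
      ∃ v₀ : H.ρ.V,
        (∀ σ ∈ P.inertiaSubgroupIn ℚ, ∀ v : H.ρ.V, ∃ c : T,
          H.ρ.ρ σ v - v - c • v₀ ∈ maximalIdeal T • (⊤ : Submodule T H.ρ.V)) ∧
        ∃ σ₀ ∈ P.inertiaSubgroupIn ℚ, ∃ v : H.ρ.V,
          H.ρ.ρ σ₀ v - v ∉ maximalIdeal T • (⊤ : Submodule T H.ρ.V))
    (hNU : haveI : NeZero p := ⟨hp.ne_zero⟩
      ∀ P : ValuationSubring (AlgebraicClosure ℚ), P.LiesOverPrime p →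
        NU1 N P (⟨hp, hN.1, hN.2⟩ : ExactDvd p N) p) :
    H.ρ.IsOrdinaryAt p := by
  have : NeZero p := ⟨hp.ne_zero⟩
  have hpS : p ∈ S := hNS p hp hN.1
  refine isOrdinaryAt_of_isSubquotPow H.ρ hfin hshape fun P hP n => ?_
  have : Finite (T ⧸ maximalIdeal T ^ n) := hfin n
  obtain ⟨k, hk⟩ := Fermat.Agent.GS.SubQ.isSubquotPow_levelAction_of_mem hp hp2 hp𝒪 hpS hNS H
    (maximalIdeal T ^ n)
  obtain ⟨h1, h2, h3, h4⟩ := plug_M0tors (N := N) (A := P) (h := (⟨hp, hN.1, hN.2⟩ : ExactDvd p N))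
    hP (hNU P hP) k
  exact ⟨Tors N ((p : ℤ) ^ k), inferInstance, fun σ x => torsAct N ((p : ℤ) ^ k) σ x,
    M0tors N P (⟨hp, hN.1, hN.2⟩ : ExactDvd p N) p k, hk, h1, h2, h3, h4⟩

end Fermat.Agent.GS.F
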